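/-
S16, UPPER package U4 (helper57): the norm–Sturm engine.

If every coset translate of a form `Ψ` of weight `w` on `Γ₀(p)` has a period-`p` expansion with
coefficients in a subring `A ⊆ ℂ`, lying in a prime ideal `P` of `A` below `t ^ (o c)` and not in
`P` at `t ^ (o c)`, then the norm of `Ψ` (the product of all translates, a level-one form of weight
`w (p + 1)`) has exact order `∑ o c` modulo `P`; by the Sturm bound over `P` (helper78's
`coeff_mem_of_forall_le`) this is impossible as soon as `p * (w (p + 1) / 12) < ∑ o c`.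
-/
import Fermat.Agent.S20.Basic
import Fermat.Agent.S20.LevelOne
import Fermat.Agent.S20.H77.Index
import Fermat.Agent.S16.H78.LevelOneZ
import Fermat.Prelude.Thm_UpperHalfPlane_qExpansion_prod
import Fermat.Prelude.Thm_UpperHalfPlane_qExpansion_coeff_nat_mul

set_option autoImplicit false

open UpperHalfPlane ModularForm CongruenceSubgroup Matrix.SpecialLinearGroup
open scoped MatrixGroups ModularForm Manifold Topology
open Fermat.Agent.S20

noncomputable section

namespace Fermat.Agent.S16.H57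

/-! ### The formal part: orders modulo a prime ideal -/

/-- Modulo a prime ideal, the exact orders of power series add up in a finite product. -/
theorem coeff_prod_mem {A : Type*} [CommRing A] (P : Ideal A) [P.IsPrime] {ι : Type*}
    (s : Finset ι) (Q : ι → PowerSeries A) (o : ι → ℕ)
    (hlow : ∀ i ∈ s, ∀ n < o i, PowerSeries.coeff n (Q i) ∈ P)
    (htop : ∀ i ∈ s, PowerSeries.coeff (o i) (Q i) ∉ P) :
    (∀ n < ∑ i ∈ s, o i, PowerSeries.coeff n (∏ i ∈ s, Q i) ∈ P) ∧
      PowerSeries.coeff (∑ i ∈ s, o i) (∏ i ∈ s, Q i) ∉ P := by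
  classical
  let π : A →+* A ⧸ P := Ideal.Quotient.mk P
  have hord : ∀ i ∈ s, (PowerSeries.map π (Q i)).order = (o i : ℕ∞) := by
    intro i hi
    rw [PowerSeries.order_eq_nat]
    refine ⟨?_, fun n hn => ?_⟩
    · rw [PowerSeries.coeff_map]
      exact fun h0 => htop i hi (Ideal.Quotient.eq_zero_iff_mem.mp h0)
    · rw [PowerSeries.coeff_map]
      exact Ideal.Quotient.eq_zero_iff_mem.mpr (hlow i hi n hn)
  have hprod : (PowerSeries.map π (∏ i ∈ s, Q i)).order = ((∑ i ∈ s, o i : ℕ) : ℕ∞) := by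
    rw [map_prod, PowerSeries.order_prod, Finset.sum_congr rfl hord]
    push_cast
    rfl
  rw [PowerSeries.order_eq_nat] at hprod
  refine ⟨fun n hn => ?_, fun hmem => ?_⟩
  · have := hprod.2 n hn
    rw [PowerSeries.coeff_map] at this
    exact Ideal.Quotient.eq_zero_iff_mem.mp this
  · apply hprod.1
    rw [PowerSeries.coeff_map]
    exact Ideal.Quotient.eq_zero_iff_mem.mpr hmem

/-! ### The norm of a form on `Γ₀(p)` -/

section Norm

variable {p : ℕ} [Fact p.Prime] {w : ℕ}

local instance instNeZeroP : NeZero p := ⟨(Fact.out : p.Prime).ne_zero⟩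

theorem card_X_prime (p : ℕ) [Fact p.Prime] : Fintype.card (X p) = p + 1 := by
  have hp : p.Prime := Fact.out
  have h1 := H77.card_quotient_Gamma0 p
  have h2 := H77.dedekindPsi_mul_prime_of_not_dvd (N := 1) hp one_ne_zero
    (fun h => hp.one_lt.ne' (Nat.dvd_one.mp h))
  rw [one_mul, ModularCurve.dedekindPsi_one, mul_one] at h2
  rw [← Nat.card_eq_fintype_card, ← h2]
  exact h1

/-- The norm of `Ψ`: the product of all coset translates. -/
def normFun (Ψ : ModularForm (Γ0 p) w) : ℍ → ℂ := ∏ c : X p, cosetFun Ψ c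

theorem mdiff_normFun (Ψ : ModularForm (Γ0 p) w) : MDiff (normFun Ψ) :=
  MDifferentiable.prod fun c _ => mdifferentiable_cosetFun Ψ c

theorem isBoundedAtImInfty_prod {ι : Type*} (s : Finset ι) (F : ι → ℍ → ℂ)
    (h : ∀ i ∈ s, IsBoundedAtImInfty (F i)) : IsBoundedAtImInfty (∏ i ∈ s, F i) := by
  classical
  induction s using Finset.induction_on with
  | empty =>
    rw [Finset.prod_empty]
    exact Filter.const_boundedAtFilter _ (1 : ℂ)
  | insert a t ha IH =>
    rw [Finset.prod_insert ha]
    exact (h a (Finset.mem_insert_self a t)).mul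
      (IH fun i hi => h i (Finset.mem_insert_of_mem hi))

theorem isBoundedAtImInfty_normFun (Ψ : ModularForm (Γ0 p) w) :
    IsBoundedAtImInfty (normFun Ψ) :=
  isBoundedAtImInfty_prod _ _ fun c _ => isBoundedAtImInfty_cosetFun Ψ c

theorem normFun_slash (Ψ : ModularForm (Γ0 p) w) (g : SL(2, ℤ)) :
    normFun Ψ ∣[((w * (p + 1) : ℕ) : ℤ)] g = normFun Ψ := by
  have hk : ((w * (p + 1) : ℕ) : ℤ) = (w : ℤ) * (Finset.univ : Finset (X p)).card := by
    rw [Finset.card_univ, card_X_prime p]
    push_cast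
    ring
  rw [hk, ModularForm.SL_slash, normFun, ModularForm.prod_slash]
  have hdet : |((g : GL (Fin 2) ℝ).det : ℝˣ).val| = 1 := by
    simp
  rw [hdet, one_zpow, one_smul]
  have h1 : ∀ c : X p, cosetFun Ψ c ∣[(w : ℤ)] (g : GL (Fin 2) ℝ) = cosetFun Ψ (g⁻¹ • c) := by
    intro c
    rw [← ModularForm.SL_slash, cosetFun_slash]
  simp_rw [h1]
  exact Equiv.prod_comp (MulAction.toPerm g⁻¹) (fun c => cosetFun Ψ c)

/-- The norm is a level-one modular form of weight `w (p + 1)`. -/
theorem exists_levelOne_norm (Ψ : ModularForm (Γ0 p) w) :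
    ∃ r : ModularForm 𝒮ℒ ((w * (p + 1) : ℕ) : ℤ), ⇑r = normFun Ψ :=
  levelOne_of_invariant (mdiff_normFun Ψ) (normFun_slash Ψ) (isBoundedAtImInfty_normFun Ψ)

/-- The period-`p` expansion of the norm is the product of the period-`p` expansions of the
translates. -/
theorem qExpansion_normFun (Ψ : ModularForm (Γ0 p) w) :
    qExpansion (p : ℝ) (normFun Ψ) = ∏ c : X p, qExpansion (p : ℝ) (cosetFun Ψ c) := by
  have hp : (0 : ℝ) < p := Nat.cast_pos.mpr (Fact.out : p.Prime).pos
  exact UpperHalfPlane.qExpansion_prod Finset.univ fun c _ =>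
    analyticAt_cuspFunction_zero hp (cosetFun_periodic Ψ c) (mdifferentiable_cosetFun Ψ c)
      (isBoundedAtImInfty_cosetFun Ψ c)

/-- The period-`p` expansion of a level-one form is its `q`-expansion in `q = t ^ p`. -/
theorem qExpansion_levelOne_coeff {k : ℤ} (r : ModularForm 𝒮ℒ k) (n : ℕ) :
    (qExpansion (p : ℝ) r).coeff n = if p ∣ n then (qExpansion 1 r).coeff (n / p) else 0 := by
  have hper : Function.Periodic ((r : ℍ → ℂ) ∘ ofComplex) 1 :=
    SlashInvariantFormClass.periodic_comp_ofComplex r one_mem_strictPeriods_SL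
  have hbdd : IsBoundedAtImInfty (r : ℍ → ℂ) := ModularFormClass.bdd_at_infty r
  have h := UpperHalfPlane.qExpansion_coeff_nat_mul (h := 1) one_pos hper (ModularFormClass.holo r)
    hbdd (M := p) (Fact.out : p.Prime).pos n
  rwa [mul_one] at h

/-- **Norm–Sturm engine, general form.**  If the coset translate `c` of `Ψ` has exact order `o c`
modulo the prime ideal `P` (in the local parameter `t = q ^ (1 / p)`), then
`∑ o c ≤ p * (w (p + 1) / 12)`. -/
theorem norm_sturm_gen (p : ℕ) [Fact p.Prime] {w : ℕ} (Ψ : ModularForm (Γ0 p) w)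
    (A : Subring ℂ) (P : Ideal A) (hP : P.IsPrime) (o : X p → ℕ)
    (h : ∀ c : X p, ∃ Q : PowerSeries A,
      qExpansion (p : ℝ) (cosetFun Ψ c) = Q.map A.subtype ∧
      (∀ n < o c, PowerSeries.coeff n Q ∈ P) ∧ PowerSeries.coeff (o c) Q ∉ P)
    (hsum : p * (w * (p + 1) / 12) < ∑ c : X p, o c) : False := by
  classical
  have hp : p.Prime := Fact.out
  choose Q hQ hlow htop using h
  obtain ⟨r, hr⟩ := exists_levelOne_norm Ψ
  set S := ∑ c : X p, o c with hS
  set R : PowerSeries A := ∏ c : X p, Q c with hR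
  obtain ⟨hRlow, hRtop⟩ := coeff_prod_mem P Finset.univ Q o (fun c _ => hlow c) (fun c _ => htop c)
  -- the period-`p` expansion of the norm
  have hexp : qExpansion (p : ℝ) (r : ℍ → ℂ) = R.map A.subtype := by
    rw [hr, qExpansion_normFun, hR, map_prod]
    exact Finset.prod_congr rfl fun c _ => hQ c
  have hcoeff : ∀ n : ℕ, ((PowerSeries.coeff n R : A) : ℂ) =
      if p ∣ n then (qExpansion 1 r).coeff (n / p) else 0 := by
    intro n
    rw [← qExpansion_levelOne_coeff (p := p) r n, hexp, PowerSeries.coeff_map]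
    rfl
  -- `p ∣ S`
  have hpS : p ∣ S := by
    by_contra hnd
    have h0 := hcoeff S
    rw [if_neg hnd] at h0
    have h0' : PowerSeries.coeff S R = 0 := by
      exact_mod_cast h0
    exact hRtop (h0' ▸ P.zero_mem)
  obtain ⟨m, hm⟩ := hpS
  -- the additive subgroup of `ℂ` corresponding to `P`
  let M : AddSubgroup ℂ := P.toAddSubgroup.map A.subtype.toAddMonoidHom
  have hmemM : ∀ n : ℕ, p * n < S → (qExpansion 1 r).coeff n ∈ M := by
    intro n hn
    have h1 := hcoeff (p * n)
    rw [if_pos (dvd_mul_right p n), Nat.mul_div_cancel_left n hp.pos] at h1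
    rw [← h1]
    exact ⟨PowerSeries.coeff (p * n) R, hRlow _ hn, rfl⟩
  have hall := H78.coeff_mem_of_forall_le M r (fun n hn =>
    hmemM n (lt_of_le_of_lt (Nat.mul_le_mul_left p hn) hsum)) m
  obtain ⟨a, haP, ha⟩ := hall
  have h1 := hcoeff (p * m)
  rw [if_pos (dvd_mul_right p m), Nat.mul_div_cancel_left m hp.pos] at h1
  have h2 : a = PowerSeries.coeff (p * m) R := by
    apply Subtype.ext
    rw [h1]
    exact ha
  rw [← hm] at h2
  exact hRtop (h2 ▸ haP)

/-- **Norm–Sturm engine (U4).**  If every coset translate of `Ψ` (weight `w < 12`) has a period-`p`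
expansion with coefficients in the subring `A`, lying in the prime ideal `P` below `t ^ p` and not
in `P` at `t ^ p`: contradiction. -/
theorem norm_sturm (p : ℕ) [Fact p.Prime] {w : ℕ} (hw : w < 12) (Ψ : ModularForm (Γ0 p) w)
    (A : Subring ℂ) (P : Ideal A) (hP : P.IsPrime)
    (h : ∀ c : X p, ∃ Q : PowerSeries A,
      qExpansion (p : ℝ) (cosetFun Ψ c) = Q.map A.subtype ∧
      (∀ n < p, PowerSeries.coeff n Q ∈ P) ∧ PowerSeries.coeff p Q ∉ P) : False := by
  have hp : p.Prime := Fact.out
  refine norm_sturm_gen p Ψ A P hP (fun _ => p) h ?_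
  rw [Finset.sum_const, Finset.card_univ, card_X_prime p, smul_eq_mul, mul_comm (p + 1) p]
  refine Nat.mul_lt_mul_of_pos_left ?_ hp.pos
  rw [Nat.div_lt_iff_lt_mul (by norm_num)]
  exact Nat.mul_lt_mul_of_pos_right hw (Nat.succ_pos p) |>.trans_eq (mul_comm _ _)

end Norm

end Fermat.Agent.S16.H57
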